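import Mathlib
import Fermat.Agent.LT.T6.H277.OrbEllSpec
import Fermat.Agent.LT.H129.CartanInv

/-!
# Row LT, tower T6, sub-leaf T6.13.2.4 `FixBallC` (helper69), OFF-MAIN

Against `LT/T6/H277/OrbEllSpec.lean` (helper277, sha256 7b0956b2baf7cad6), on `LT/T6/Spec.lean`
(helper22, sha256 89f8f8b81940fd80) and the Cartan toolkit `LT/H129/CartanInv.lean` (helper129),
byte-identical copies.  Nothing is assumed.

`fixBallC69 : H277.FixBallC`: for `y = ϖ^j (a + ϖ^r w)` in normal form, the vertex `[x]` of the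
tree is fixed by `y` iff its Cartan distance from `[1]` is `≤ r`.

Proof.  `gd g = 2 log (entryMax g) - log v(det g) ≥ 0`, and for `v(det g) = exp (-2j)`:
`gd g = 0` iff every entry of `g` has valuation `≤ exp (-j)`.  Write `x = u₁ d u₂` (Cartan,
helper129), `d = diag(x₀, y₀)`, `v y₀ ≤ v x₀`.  The normal form is stable under conjugation by
`u₁ ∈ GL₂(𝒪)`, and `gd` is bi-invariant, so `x = d`.  For `w = [[p, q], [s, t]]` the value of the
characteristic polynomial at `p` is `- q s`, so `q` and `s` are units.  The entries of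
`d⁻¹ y d` are `ϖ^j (a + ϖ^r p)`, `ϖ^{j+r} q y₀/x₀`, `ϖ^{j+r} s x₀/y₀`, `ϖ^j (a + ϖ^r t)`.
-/

set_option autoImplicit false

open Matrix

noncomputable section

namespace Fermat.Agent.LT.T6.H69

open Fermat.Agent.LT.T6 Fermat.Agent.LT.T6.H277 Fermat.Agent.LT.H129

variable {k : Type} [Field k] [Valued k Γ₀]

/-! ## 1. The Cartan distance through the largest entry -/

theorem entryMax_ne_zero69 (g : GL (Fin 2) k) : entryMax g ≠ 0 := by
  intro h0
  have hz : ∀ i j, (g : Matrix (Fin 2) (Fin 2) k) i j = 0 := by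
    intro i j
    have := entry_le_entryMax129 g i j
    rw [h0, le_zero_iff, map_eq_zero] at this
    exact this
  exact det_ne_zero129 g (by rw [hz 0 0, hz 0 1]; simp)

theorem det_le_entryMax_sq69 (g : GL (Fin 2) k) :
    Valued.v (g : Matrix (Fin 2) (Fin 2) k).det ≤ entryMax g * entryMax g := by
  rw [Matrix.det_fin_two]
  refine le_trans (Valuation.map_sub _ _ _) (max_le ?_ ?_)
  · rw [map_mul]
    exact mul_le_mul' (entry_le_entryMax129 g 0 0) (entry_le_entryMax129 g 1 1)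
  · rw [map_mul]
    exact mul_le_mul' (entry_le_entryMax129 g 0 1) (entry_le_entryMax129 g 1 0)

theorem gd277_eq69 (g : GL (Fin 2) k) :
    gd277 g = 2 * WithZero.log (entryMax g)
      - WithZero.log (Valued.v (g : Matrix (Fin 2) (Fin 2) k).det) := by
  unfold gd277 cartan
  dsimp only
  ring

/-- The Cartan distance is non-negative. -/
theorem gd277_nonneg69 (g : GL (Fin 2) k) : 0 ≤ gd277 g := by
  have hE := entryMax_ne_zero69 g
  have hD : Valued.v (g : Matrix (Fin 2) (Fin 2) k).det ≠ 0 := by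
    rw [ne_eq, map_eq_zero]; exact det_ne_zero_gl129 g
  have := (WithZero.log_le_log hD (mul_ne_zero hE hE)).mpr (det_le_entryMax_sq69 g)
  rw [WithZero.log_mul hE hE] at this
  rw [gd277_eq69]
  omega

/-- For `v(det g) = exp (-2j)`: `gd g = 0` iff every entry has valuation `≤ exp (-j)`. -/
theorem gd277_zero_iff69 (g : GL (Fin 2) k) (j : ℤ)
    (hdet : Valued.v (g : Matrix (Fin 2) (Fin 2) k).det = WithZero.exp (-(2 * j))) :
    gd277 g = 0 ↔
      ∀ i l, Valued.v ((g : Matrix (Fin 2) (Fin 2) k) i l) ≤ WithZero.exp (-j) := by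
  have hE := entryMax_ne_zero69 g
  have hnn := gd277_nonneg69 g
  rw [gd277_eq69, hdet, WithZero.log_exp] at hnn
  rw [gd277_eq69, hdet, WithZero.log_exp]
  constructor
  · intro h i l
    have h1 : WithZero.log (entryMax g) = -j := by omega
    have h2 : entryMax g = WithZero.exp (-j) := by rw [← h1, WithZero.exp_log hE]
    exact h2 ▸ entry_le_entryMax129 g i l
  · intro h
    have h1 : entryMax g ≤ WithZero.exp (-j) := entryMax_le129 g h
    have h2 : WithZero.log (entryMax g) ≤ -j := by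
      have := (WithZero.log_le_log hE WithZero.exp_ne_zero).mpr h1
      rwa [WithZero.log_exp] at this
    omega

/-! ## 2. Conjugation -/

theorem gd277_conj_reduce69 {u₁ u₂ d y : GL (Fin 2) k} (hu₂ : InU 0 u₂) :
    gd277 ((u₁ * d * u₂)⁻¹ * y * (u₁ * d * u₂)) = gd277 (d⁻¹ * (u₁⁻¹ * y * u₁) * d) := by
  have e : (u₁ * d * u₂)⁻¹ * y * (u₁ * d * u₂)
      = u₂⁻¹ * (d⁻¹ * (u₁⁻¹ * y * u₁) * d) * u₂ := by group
  unfold gd277
  rw [e, cartan_mul129 (inU_zero_inv129 hu₂) hu₂]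

omit [Valued k Γ₀] in
theorem coe_conj69 (c g : GL (Fin 2) k) :
    ((c⁻¹ * g * c : GL (Fin 2) k) : Matrix (Fin 2) (Fin 2) k)
      = ((c⁻¹ : GL (Fin 2) k) : Matrix (Fin 2) (Fin 2) k) * (g : Matrix (Fin 2) (Fin 2) k)
        * (c : Matrix (Fin 2) (Fin 2) k) := by
  rw [Matrix.GeneralLinearGroup.coe_mul, Matrix.GeneralLinearGroup.coe_mul]

omit [Valued k Γ₀] in
theorem det_conj69 (c g : GL (Fin 2) k) :
    ((c⁻¹ * g * c : GL (Fin 2) k) : Matrix (Fin 2) (Fin 2) k).det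
      = (g : Matrix (Fin 2) (Fin 2) k).det := by
  rw [coe_conj69]
  exact Matrix.det_units_conj' c _

omit [Valued k Γ₀] in
theorem trace_conj69 (c g : GL (Fin 2) k) :
    ((c⁻¹ * g * c : GL (Fin 2) k) : Matrix (Fin 2) (Fin 2) k).trace
      = (g : Matrix (Fin 2) (Fin 2) k).trace := by
  rw [coe_conj69]
  exact Matrix.trace_units_conj' c _

/-- The normal form is stable under conjugation by `GL₂(𝒪)`. -/
theorem isNF277_conj69 {ϖ : k} {j : ℤ} {r : ℕ} {a : k} {w u y c : GL (Fin 2) k}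
    (h : IsNF277 ϖ j r a w u y) (hc : InU 0 c) :
    IsNF277 ϖ j r a (c⁻¹ * w * c) (c⁻¹ * u * c) (c⁻¹ * y * c) where
  unif := h.unif
  a_int := h.a_int
  w_int := inU_zero_mul129 (inU_zero_mul129 (inU_zero_inv129 hc) h.w_int) hc
  u_int := inU_zero_mul129 (inU_zero_mul129 (inU_zero_inv129 hc) h.u_int) hc
  w_irr := by
    intro b hb
    rw [trace_conj69, det_conj69]
    exact h.w_irr b hb
  u_eq := by
    have h1 : ((c⁻¹ : GL (Fin 2) k) : Matrix (Fin 2) (Fin 2) k) * (c : Matrix (Fin 2) (Fin 2) k)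
        = 1 := by
      rw [← Matrix.GeneralLinearGroup.coe_mul, inv_mul_cancel]; rfl
    rw [coe_conj69, coe_conj69, h.u_eq, Matrix.mul_add, Matrix.add_mul, Matrix.mul_smul,
      Matrix.smul_mul, Matrix.mul_one, h1, Matrix.mul_smul, Matrix.smul_mul]
  y_eq := by
    rw [coe_conj69, coe_conj69, h.y_eq, Matrix.mul_smul, Matrix.smul_mul]

/-! ## 3. The off-diagonal entries of `w` are units -/

theorem mul_eq_one_of_le69 {α β : Γ₀} (hα : α ≤ 1) (hβ : β ≤ 1) (h : α * β = 1) :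
    α = 1 ∧ β = 1 := by
  constructor
  · refine le_antisymm hα ?_
    calc (1 : Γ₀) = α * β := h.symm
      _ ≤ α * 1 := mul_le_mul' le_rfl hβ
      _ = α := mul_one _
  · refine le_antisymm hβ ?_
    calc (1 : Γ₀) = α * β := h.symm
      _ ≤ 1 * β := mul_le_mul' hα le_rfl
      _ = β := one_mul _

theorem entry_int69 {w : GL (Fin 2) k} (hw : InU 0 w) (i l : Fin 2) :
    Valued.v ((w : Matrix (Fin 2) (Fin 2) k) i l) ≤ 1 :=
  ((inU_zero_iff129 w).mp hw).1 i l

theorem offdiag_unit69 {ϖ : k} {j : ℤ} {r : ℕ} {a : k} {w u y : GL (Fin 2) k}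
    (h : IsNF277 ϖ j r a w u y) :
    Valued.v ((w : Matrix (Fin 2) (Fin 2) k) 0 1) = 1 ∧
      Valued.v ((w : Matrix (Fin 2) (Fin 2) k) 1 0) = 1 := by
  have h1 := h.w_irr ((w : Matrix (Fin 2) (Fin 2) k) 0 0) (entry_int69 h.w_int 0 0)
  have h2 : chi277 (w : Matrix (Fin 2) (Fin 2) k).trace (w : Matrix (Fin 2) (Fin 2) k).det
      ((w : Matrix (Fin 2) (Fin 2) k) 0 0)
      = -((w : Matrix (Fin 2) (Fin 2) k) 0 1 * (w : Matrix (Fin 2) (Fin 2) k) 1 0) := by
    unfold chi277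
    rw [Matrix.trace_fin_two, Matrix.det_fin_two]
    ring
  rw [h2, Valuation.map_neg, map_mul] at h1
  exact mul_eq_one_of_le69 (entry_int69 h.w_int 0 1) (entry_int69 h.w_int 1 0) h1

/-! ## 4. The diagonal case -/

omit [Valued k Γ₀] in
theorem diag129_inv69 (x y : k) (hx : x ≠ 0) (hy : y ≠ 0) :
    (diag129 x y hx hy)⁻¹ = diag129 x⁻¹ y⁻¹ (inv_ne_zero hx) (inv_ne_zero hy) := by
  apply inv_eq_of_mul_eq_one_right
  rw [diag129_mul]
  apply ext_mat129
  simp only [diag129, coe_mkGL129, mul_inv_cancel₀ hx, mul_inv_cancel₀ hy]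
  rw [Units.val_one, Matrix.one_fin_two]

omit [Valued k Γ₀] in
theorem conj_diag_apply69 (x y : k) (hx : x ≠ 0) (hy : y ≠ 0) (g : GL (Fin 2) k) :
    (((diag129 x y hx hy)⁻¹ * g * diag129 x y hx hy : GL (Fin 2) k) :
        Matrix (Fin 2) (Fin 2) k)
      = !![(g : Matrix (Fin 2) (Fin 2) k) 0 0, x⁻¹ * (g : Matrix (Fin 2) (Fin 2) k) 0 1 * y;
           y⁻¹ * (g : Matrix (Fin 2) (Fin 2) k) 1 0 * x, (g : Matrix (Fin 2) (Fin 2) k) 1 1] := by
  rw [diag129_inv69, Matrix.GeneralLinearGroup.coe_mul, Matrix.GeneralLinearGroup.coe_mul]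
  simp only [diag129, coe_mkGL129]
  conv_lhs => rw [eta129 g]
  rw [Matrix.mul_fin_two, Matrix.mul_fin_two]
  ext i l
  fin_cases i <;> fin_cases l <;> simp
  · field_simp
  · field_simp

theorem val_zpow_unif69 {ϖ : k} (h : Valued.v ϖ = WithZero.exp (-1 : ℤ)) (j : ℤ) :
    Valued.v (ϖ ^ j) = WithZero.exp (-j) := by
  rw [map_zpow₀, h, ← WithZero.exp_zsmul]
  congr 1
  simp

theorem val_pow_unif69 {ϖ : k} (h : Valued.v ϖ = WithZero.exp (-1 : ℤ)) (r : ℕ) :
    Valued.v (ϖ ^ r) = WithZero.exp (-(r : ℤ)) := by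
  rw [map_pow, h, ← WithZero.exp_nsmul]
  congr 1
  simp

/-- The entries of `y` in normal form. -/
theorem nf_entries69 {ϖ : k} {j : ℤ} {r : ℕ} {a : k} {w u y : GL (Fin 2) k}
    (h : IsNF277 ϖ j r a w u y) (i l : Fin 2) :
    (y : Matrix (Fin 2) (Fin 2) k) i l
      = ϖ ^ j * (a * (1 : Matrix (Fin 2) (Fin 2) k) i l
          + ϖ ^ r * (w : Matrix (Fin 2) (Fin 2) k) i l) := by
  rw [h.y_eq, h.u_eq]
  simp [Matrix.smul_apply, Matrix.add_apply]

theorem nf_det69 {ϖ : k} {j : ℤ} {r : ℕ} {a : k} {w u y : GL (Fin 2) k}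
    (h : IsNF277 ϖ j r a w u y) :
    Valued.v (y : Matrix (Fin 2) (Fin 2) k).det = WithZero.exp (-(2 * j)) := by
  rw [h.y_eq, Matrix.det_smul, Fintype.card_fin, map_mul, map_pow, val_zpow_unif69 h.unif,
    valued_det_of_isMaxCpt129 ((inU_zero_iff129 u).mp h.u_int), mul_one, ← WithZero.exp_nsmul]
  congr 1
  simp

/-- **The diagonal case.** -/
theorem fixBall_diag69 {ϖ : k} {j : ℤ} {r : ℕ} {a : k} {w u y : GL (Fin 2) k}
    (h : IsNF277 ϖ j r a w u y) (x₀ y₀ : k) (hx : x₀ ≠ 0) (hy : y₀ ≠ 0)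
    (hxy : Valued.v y₀ ≤ Valued.v x₀) :
    gd277 ((diag129 x₀ y₀ hx hy)⁻¹ * y * diag129 x₀ y₀ hx hy) = 0 ↔
      WithZero.log (Valued.v x₀) - WithZero.log (Valued.v y₀) ≤ (r : ℤ) := by
  have hvx : Valued.v x₀ ≠ 0 := by rwa [ne_eq, map_eq_zero]
  have hvy : Valued.v y₀ ≠ 0 := by rwa [ne_eq, map_eq_zero]
  have hmn : WithZero.log (Valued.v y₀) ≤ WithZero.log (Valued.v x₀) :=
    (WithZero.log_le_log hvy hvx).mpr hxy
  have ex : Valued.v x₀ = WithZero.exp (WithZero.log (Valued.v x₀)) :=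
    (WithZero.exp_log hvx).symm
  have ey : Valued.v y₀ = WithZero.exp (WithZero.log (Valued.v y₀)) :=
    (WithZero.exp_log hvy).symm
  set m : ℤ := WithZero.log (Valued.v x₀) with hm
  set n : ℤ := WithZero.log (Valued.v y₀) with hn
  obtain ⟨hq, hs⟩ := offdiag_unit69 h
  have hdet : Valued.v (((diag129 x₀ y₀ hx hy)⁻¹ * y * diag129 x₀ y₀ hx hy : GL (Fin 2) k) :
      Matrix (Fin 2) (Fin 2) k).det = WithZero.exp (-(2 * j)) := by
    rw [det_conj69, nf_det69 h]
  rw [gd277_zero_iff69 _ j hdet, conj_diag_apply69]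
  -- the four entries
  have hr1 : Valued.v (ϖ ^ r) ≤ 1 := by
    rw [val_pow_unif69 h.unif, ← WithZero.exp_zero, WithZero.exp_le_exp]
    omega
  have hdiag : ∀ i : Fin 2, Valued.v ((y : Matrix (Fin 2) (Fin 2) k) i i) ≤ WithZero.exp (-j) := by
    intro i
    rw [nf_entries69 h, map_mul, val_zpow_unif69 h.unif]
    have : Valued.v (a * (1 : Matrix (Fin 2) (Fin 2) k) i i
        + ϖ ^ r * (w : Matrix (Fin 2) (Fin 2) k) i i) ≤ 1 := by
      refine le_trans (Valuation.map_add _ _ _) (max_le ?_ ?_)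
      · simpa using h.a_int
      · rw [map_mul]
        calc Valued.v (ϖ ^ r) * Valued.v ((w : Matrix (Fin 2) (Fin 2) k) i i)
            ≤ 1 * 1 := mul_le_mul' hr1 (entry_int69 h.w_int i i)
          _ = 1 := mul_one _
    calc WithZero.exp (-j) * Valued.v (a * (1 : Matrix (Fin 2) (Fin 2) k) i i
          + ϖ ^ r * (w : Matrix (Fin 2) (Fin 2) k) i i)
        ≤ WithZero.exp (-j) * 1 := mul_le_mul' le_rfl this
      _ = WithZero.exp (-j) := mul_one _
  have h01 : Valued.v (x₀⁻¹ * (y : Matrix (Fin 2) (Fin 2) k) 0 1 * y₀)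
      = WithZero.exp (-m + (-j + -(r : ℤ)) + n) := by
    rw [nf_entries69 h]
    simp only [Matrix.one_apply_ne (show (0 : Fin 2) ≠ 1 by decide), mul_zero, zero_add]
    rw [map_mul, map_mul, map_mul, map_mul, map_inv₀, val_zpow_unif69 h.unif,
      val_pow_unif69 h.unif, hq, mul_one, ex, ey,
      ← WithZero.exp_neg, ← WithZero.exp_add, ← WithZero.exp_add, ← WithZero.exp_add]
  have h10 : Valued.v (y₀⁻¹ * (y : Matrix (Fin 2) (Fin 2) k) 1 0 * x₀)
      = WithZero.exp (-n + (-j + -(r : ℤ)) + m) := by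
    rw [nf_entries69 h]
    simp only [Matrix.one_apply_ne (show (1 : Fin 2) ≠ 0 by decide), mul_zero, zero_add]
    rw [map_mul, map_mul, map_mul, map_mul, map_inv₀, val_zpow_unif69 h.unif,
      val_pow_unif69 h.unif, hs, mul_one, ex, ey,
      ← WithZero.exp_neg, ← WithZero.exp_add, ← WithZero.exp_add, ← WithZero.exp_add]
  constructor
  · intro H
    have := H 1 0
    simp only [Matrix.of_apply, Matrix.cons_val_one, Matrix.cons_val_zero] at this
    rw [h10, WithZero.exp_le_exp] at this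
    omega
  · intro H i l
    fin_cases i <;> fin_cases l
    · simpa using hdiag 0
    · show Valued.v (x₀⁻¹ * (y : Matrix (Fin 2) (Fin 2) k) 0 1 * y₀) ≤ _
      rw [h01, WithZero.exp_le_exp]
      omega
    · show Valued.v (y₀⁻¹ * (y : Matrix (Fin 2) (Fin 2) k) 1 0 * x₀) ≤ _
      rw [h10, WithZero.exp_le_exp]
      omega
    · simpa using hdiag 1

/-! ## 5. The leaf -/

/-- **T6.13.2.4 `FixBallC`.** -/
theorem fixBallC69 : FixBallC := by
  intro k _ _ ϖ j r a w u y h x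
  obtain ⟨u₁, u₂, x₀, y₀, hx₀, hy₀, hu₁, hu₂, hxy, hx, hc⟩ := exists_cartan_diag129 x
  have h1 : gd277 (x⁻¹ * y * x)
      = gd277 ((diag129 x₀ y₀ hx₀ hy₀)⁻¹ * (u₁⁻¹ * y * u₁) * diag129 x₀ y₀ hx₀ hy₀) := by
    rw [hx]
    exact gd277_conj_reduce69 hu₂
  have h2 : gd277 x = WithZero.log (Valued.v x₀) - WithZero.log (Valued.v y₀) := by
    unfold gd277
    rw [hc]
    dsimp only
    ring
  rw [h1, h2]
  exact fixBall_diag69 (isNF277_conj69 h hu₁) x₀ y₀ hx₀ hy₀ hxy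

end Fermat.Agent.LT.T6.H69

end
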